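import Fermat.Agent.S48.T24.Expand
import Fermat.Agent.C24.Base

set_option autoImplicit false

/-!
# TC24: the twin of the `ℚ̄`-dependent part of T24 with constant field `ℂ`

Mechanical copy (`Kb ↦ Kc = ℂ`, `iotaK ↦ iotaC = id`) of the parts of `Fermat/Agent/S48/T24` which mention the constant field
(exactly as `C24` is obtained from `S24`).  Everything which does not mention it is reused from `Fermat.Agent.T24`, `Fermat.Agent.S24`, `Fermat.Agent.C24`.
-/

open UpperHalfPlane ModularForm EisensteinSeries CongruenceSubgroup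
open scoped MatrixGroups Manifold

namespace Fermat.Agent.TC24

open Fermat.Agent.S24 hiding constK constK_apply act_constK twist_mem_range_coeffMap_iff
  twist_mem_range qExpand_mem_range rootU_mem_range expandC_jq_mem_range btilGens Btil
  constK_mem_Btil act_jd_mem_Btil jd_mem_Btil act_mem_Btil actB coe_actB Jser fGens A0 Jser_mem_A0
  FN Btil_le_holSub Btil_le_perSub TInf_Btil_mem_range TInf_jd mem_Gamma0_of_act_jd_eq
open Fermat.Agent.C24 (Kc iotaC iotaCinv iotaC_iotaCinv iotaCinv_iotaC mem_range_iotaC constK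
  constK_apply act_constK twist_mem_range_coeffMap_iff twist_mem_range qExpand_mem_range
  rootU_mem_range expandC_jq_mem_range Jser)
open Fermat.Agent.T24 (Cond Gam mem_Gam Gam_le yv te tb Tq act_ye_eq_pre pre_yv_mem_perSub mdiff_yv
  act_te te_neg act_te_of_mem_Gam pos_of_mul_dvd eq_one_or_of_te_eq mem_Gam_of_act_eq)

/-- the function field of `X(Gam N)` over `ℂ`, inside `ℂ((q))`. -/
noncomputable abbrev mffC (N : ℕ) [Cond N] : IntermediateField Kc (LaurentSeries Kc) :=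
  ModularCurve.laurentBaseChange Kc (T24.modularFunctionFieldFull N)

/-- every series is in the range. -/
theorem mem_range_coeffMap (f : LaurentSeries ℂ) : f ∈ (ModularCurve.coeffMap iotaC).range :=
  (twist_mem_range_coeffMap_iff f).2 fun _ => mem_range_iotaC _

/-- generators of `Btil`. -/
def btilGens (N : ℕ) [Cond N] : Set (ℍ → ℂ) :=
  Set.range constK ∪ {f | ∃ (g : SL(2, ℤ)) (d : ℕ), d ∣ N ∧ f = act g (jd d)} ∪
    {f | ∃ (g : SL(2, ℤ)) (e : ℕ) (v : Fin 2 → ZMod (Cond.D N)), e * Cond.D N ∣ N ∧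
      f = act g (pre e 0 1 (yv (Cond.D N) v))}

/-- the ring generated over `ℂ` by all `SL(2,ℤ)`-conjugates of the `j (d z)`, `d ∣ N`, and of the `y_v (e z)`, `e D ∣ N`. -/
def Btil (N : ℕ) [Cond N] : Subring (ℍ → ℂ) := Subring.closure (btilGens N)

theorem constK_mem_Btil (N : ℕ) [Cond N] (a : Kc) : constK a ∈ Btil N :=
  Subring.subset_closure (Or.inl (Or.inl ⟨a, rfl⟩))

theorem act_jd_mem_Btil {N d : ℕ} [Cond N] (g : SL(2, ℤ)) (hd : d ∣ N) : act g (jd d) ∈ Btil N :=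
  Subring.subset_closure (Or.inl (Or.inr ⟨g, d, hd, rfl⟩))

theorem jd_mem_Btil {N d : ℕ} [Cond N] (hd : d ∣ N) : jd d ∈ Btil N := by
  have := act_jd_mem_Btil (N := N) 1 hd
  rwa [act_one] at this

theorem act_ye_mem_Btil {N e : ℕ} [Cond N] (g : SL(2, ℤ)) (he : e * Cond.D N ∣ N)
    (v : Fin 2 → ZMod (Cond.D N)) : act g (pre e 0 1 (yv (Cond.D N) v)) ∈ Btil N :=
  Subring.subset_closure (Or.inr ⟨g, e, v, he, rfl⟩)

theorem ye_mem_Btil {N e : ℕ} [Cond N] (he : e * Cond.D N ∣ N) (v : Fin 2 → ZMod (Cond.D N)) :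
    pre e 0 1 (yv (Cond.D N) v) ∈ Btil N := by
  have := act_ye_mem_Btil (N := N) 1 he v
  rwa [act_one] at this

theorem act_mem_Btil {N : ℕ} [Cond N] (g : SL(2, ℤ)) {b : ℍ → ℂ} (hb : b ∈ Btil N) :
    act g b ∈ Btil N := by
  induction hb using Subring.closure_induction with
  | mem x hx =>
    rcases hx with (⟨a, rfl⟩ | ⟨h, d, hd, rfl⟩) | ⟨h, e, v, he, rfl⟩
    · rw [act_constK]; exact constK_mem_Btil N a
    · rw [← act_mul]; exact act_jd_mem_Btil _ hd
    · rw [← act_mul]; exact act_ye_mem_Btil _ he v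
  | zero => simp
  | one => simp
  | add x y _ _ hx hy => rw [map_add]; exact add_mem hx hy
  | neg x _ hx => rw [map_neg]; exact neg_mem hx
  | mul x y _ _ hx hy => rw [map_mul]; exact mul_mem hx hy

/-- the action on `Btil`. -/
noncomputable def actB (N : ℕ) [Cond N] (g : SL(2, ℤ)) : Btil N →+* Btil N :=
  ((act g).comp (Btil N).subtype).codRestrict (Btil N) fun b => act_mem_Btil g b.2

@[simp] theorem coe_actB (N : ℕ) [Cond N] (g : SL(2, ℤ)) (b : Btil N) :
    ((actB N g b : Btil N) : ℍ → ℂ) = act g b := rfl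

/-- the `ℚ̄`-ring is contained in the `ℂ`-ring. -/
theorem Btil_le (N : ℕ) [Cond N] : T24.Btil N ≤ Btil N := by
  rw [T24.Btil, Subring.closure_le]
  rintro f ((⟨a, rfl⟩ | ⟨g, d, hd, rfl⟩) | ⟨g, e, v, he, rfl⟩)
  · exact constK_mem_Btil N (iotaCinv (iotaK a))
  · exact act_jd_mem_Btil g hd
  · exact act_ye_mem_Btil g he v

/-- the `q`-series `t_b(q^e)` with coefficients in `ℂ`. -/
noncomputable def Tser (D : ℕ) (e : ℕ) (b : ZMod D) : LaurentSeries Kc :=
  if h : e = 0 then 0 else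
    haveI : NeZero e := ⟨h⟩; ModularCurve.coeffEmb Kc (ModularCurve.qExpand ℚ e (Tq D b))

/-- the generators of the function field. -/
def fGens (N : ℕ) [Cond N] : Set (LaurentSeries Kc) :=
  {y | ∃ d : ℕ, d ∣ N ∧ y = Jser d} ∪
    {y | ∃ (e : ℕ) (b : ZMod (Cond.D N)), e * Cond.D N ∣ N ∧ y = Tser (Cond.D N) e b}

/-- `ℂ[j(q^d), t_b(q^e)]`. -/
noncomputable def A0 (N : ℕ) [Cond N] : Subalgebra Kc (LaurentSeries Kc) :=
  Algebra.adjoin Kc (fGens N)

theorem Jser_mem_A0 {N d : ℕ} [Cond N] (hd : d ∣ N) : Jser d ∈ A0 N :=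
  Algebra.subset_adjoin (Or.inl ⟨d, hd, rfl⟩)

theorem Tser_mem_A0 {N e : ℕ} [Cond N] (he : e * Cond.D N ∣ N) (b : ZMod (Cond.D N)) :
    Tser (Cond.D N) e b ∈ A0 N :=
  Algebra.subset_adjoin (Or.inr ⟨e, b, he, rfl⟩)

/-- the function field of `X(Gam N)` over `ℂ`. -/
abbrev FN (N : ℕ) [Cond N] : Type := ↥(mffC N)

theorem te_mem_Btil {N e : ℕ} [NeZero N] [Cond N] (he : e * Cond.D N ∣ N) (b : ZMod (Cond.D N)) :
    te (Cond.D N) e b ∈ Btil N := Btil_le N (T24.te_mem_Btil he b)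

theorem Btil_le_perSub (N : ℕ) [NeZero N] [Cond N] : Btil N ≤ perSub N := by
  rw [Btil, Subring.closure_le]
  rintro f ((⟨c, rfl⟩ | ⟨g, d, hd, rfl⟩) | ⟨g, e, v, he, rfl⟩)
  · exact (isBd_const N (iotaC c)).isPer
  · have hN : 0 < N := Nat.pos_of_ne_zero (NeZero.ne N)
    have hd0 : 0 < d := Nat.pos_of_dvd_of_pos hd hN
    obtain ⟨a, b, δ, hab, h, -⟩ := act_jd_eq_pre g hd0
    have ha : 0 < a := Nat.pos_of_ne_zero (by rintro rfl; simp at hab; omega)
    have hδ : 0 < δ := Nat.pos_of_ne_zero (by rintro rfl; simp at hab; omega)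
    show act g (jd d) ∈ perSub N
    rw [h]
    exact pre_jFun_mem_perSub ha hδ ((Dvd.intro_left a hab).trans hd)
  · have he0 : 0 < e := pos_of_mul_dvd he
    obtain ⟨a, b, δ, v', hab, h⟩ := act_ye_eq_pre (Cond.D N) g he0 v
    have ha : 0 < a := Nat.pos_of_ne_zero (by rintro rfl; simp at hab; omega)
    have hδ : 0 < δ := Nat.pos_of_ne_zero (by rintro rfl; simp at hab; omega)
    show act g (pre e 0 1 (yv (Cond.D N) v)) ∈ perSub N
    rw [h]
    exact pre_yv_mem_perSub v' ha hδ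
      ((Nat.mul_dvd_mul_right (Dvd.intro_left a hab) _).trans he)

theorem Btil_le_holSub (N : ℕ) [NeZero N] [Cond N] : Btil N ≤ holSub := by
  rw [Btil, Subring.closure_le]
  rintro f ((⟨a, rfl⟩ | ⟨g, d, hd, rfl⟩) | ⟨g, e, v, he, rfl⟩)
  · exact mdifferentiable_const
  · have hd0 : 0 < d := Nat.pos_of_dvd_of_pos hd (Nat.pos_of_ne_zero (NeZero.ne N))
    exact holB_mdiff_act (holB_mdiff_pre mdiff_jFun 0 hd0 one_pos) g
  · exact holB_mdiff_act (holB_mdiff_pre (mdiff_yv _ v) 0 (pos_of_mul_dvd he) one_pos) g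

theorem TInf_Btil_mem_range (N : ℕ) [NeZero N] [Cond N] (b : ℍ → ℂ) (hb : b ∈ Btil N) :
    TInf N ⟨b, Btil_le_perSub N hb⟩ ∈ (ModularCurve.coeffMap iotaC).range :=
  mem_range_coeffMap _

theorem TInf_jd (N : ℕ) [NeZero N] [Cond N] {d : ℕ} (hd : d ∣ N) [NeZero (d * N)] :
    TInf N ⟨jd d, Btil_le_perSub N (jd_mem_Btil hd)⟩ =
      ModularCurve.qExpand ℂ (d * N) (ModularCurve.jqModC ℂ) :=
  Fermat.Agent.S24.TInf_jd N hd

theorem coeffMap_coeffEmb (x : LaurentSeries ℚ) :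
    ModularCurve.coeffMap iotaC (ModularCurve.coeffEmb Kc x) =
      ModularCurve.coeffMap iotaK (ModularCurve.coeffEmb Kb x) := by
  ext n
  simp only [ModularCurve.coeffEmb, ModularCurve.coeffMap_coeff]
  rw [eq_ratCast, eq_ratCast, map_ratCast, map_ratCast]

theorem TInf_te (N : ℕ) [NeZero N] [Cond N] {e : ℕ} (he : e * Cond.D N ∣ N) (b : ZMod (Cond.D N))
    [NeZero (e * N)] :
    TInf N ⟨te (Cond.D N) e b, Btil_le_perSub N (te_mem_Btil he b)⟩ =
      ModularCurve.qExpand ℂ (e * N)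
        (ModularCurve.coeffMap iotaC (ModularCurve.coeffEmb Kc (Tq (Cond.D N) b))) := by
  rw [coeffMap_coeffEmb]
  exact T24.TInf_te N he b

end Fermat.Agent.TC24
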