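import Fermat.Agent.S48.TC24.Base
import Fermat.Agent.S48.T24.Inv
import Fermat.Agent.C24.Inv
import Fermat.Agent.S28.FormalHecke
import Fermat.Agent.S23.Nice
import Fermat.Agent.ES.FrameBasics
import Fermat.Prelude.Thm_ModularCurve_coeff_jqModC_pow_self
import Fermat.Prelude.Thm_ModularCurve_coeff_jqModC_pow_of_lt

set_option autoImplicit false

/-! # S24 task B-Inv : `SL(2,ℤ)`-invariant elements of `Btil` are polynomials in `j` over `ℚ̄` -/

open UpperHalfPlane ModularForm EisensteinSeries CongruenceSubgroup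
open scoped MatrixGroups Manifold

namespace Fermat.Agent.TC24

open Fermat.Agent.S24 hiding constK constK_apply act_constK twist_mem_range_coeffMap_iff
  twist_mem_range qExpand_mem_range rootU_mem_range expandC_jq_mem_range btilGens Btil
  constK_mem_Btil act_jd_mem_Btil jd_mem_Btil act_mem_Btil actB coe_actB Jser fGens A0 Jser_mem_A0
  FN Btil_le_holSub Btil_le_perSub TInf_Btil_mem_range TInf_jd mem_Gamma0_of_act_jd_eq
open Fermat.Agent.C24 (Kc iotaC iotaCinv iotaC_iotaCinv iotaCinv_iotaC mem_range_iotaC constK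
  constK_apply act_constK twist_mem_range_coeffMap_iff twist_mem_range qExpand_mem_range
  rootU_mem_range expandC_jq_mem_range Jser)
open Fermat.Agent.T24 (Cond Gam mem_Gam Gam_le yv te tb Tq act_ye_eq_pre pre_yv_mem_perSub mdiff_yv
  act_te te_neg act_te_of_mem_Gam pos_of_mul_dvd eq_one_or_of_te_eq mem_Gam_of_act_eq
  finiteIndex_Gam finite_quot_Gam)

/-- the `q^{1/N}`-expansion of `j`. -/
noncomputable def invJ (N : ℕ) [NeZero N] [Cond N] : LaurentSeries ℂ :=
  ModularCurve.qExpand ℂ N (ModularCurve.jqModC ℂ)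

theorem inv_coeff_J_pow (N : ℕ) [NeZero N] [Cond N] (i : ℕ) (k : ℤ) :
    ((invJ N) ^ i).coeff ((N : ℤ) * k) = ((ModularCurve.jqModC ℂ) ^ i).coeff k := by
  rw [invJ, ← map_pow, ModularCurve.qExpand_coeff_mul]

theorem inv_J_mem (N : ℕ) [NeZero N] [Cond N] : invJ N ∈ (ModularCurve.coeffMap iotaC).range := by
  apply qExpand_mem_range
  exact ⟨ModularCurve.jqModC Kc, ModularCurve.map_jqModC iotaC⟩

theorem inv_C_mem (a : Kc) :
    (HahnSeries.C (iotaC a) : LaurentSeries ℂ) ∈ (ModularCurve.coeffMap iotaC).range :=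
  ⟨HahnSeries.C a, ModularCurve.coeffMap_single iotaC 0 a⟩

theorem inv_coeff_mem {f : LaurentSeries ℂ} (hf : f ∈ (ModularCurve.coeffMap iotaC).range)
    (n : ℤ) : f.coeff n ∈ iotaC.range := by
  obtain ⟨g, rfl⟩ := hf
  exact ⟨g.coeff n, rfl⟩

theorem inv_coeff_sum_eq_zero (N : ℕ) [NeZero N] [Cond N] (c : ℕ → ℂ) (M : ℕ) :
    ∀ k ≤ M, (∑ i ∈ Finset.range k, HahnSeries.C (c i) * invJ N ^ i).coeff
      ((N : ℤ) * (-(M : ℤ))) = 0 := by
  intro k
  induction k with
  | zero => intro _; simp
  | succ k ih =>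
    intro hk
    rw [Finset.sum_range_succ, HahnSeries.coeff_add, ih (by omega), zero_add,
      HahnSeries.C_mul_eq_smul, HahnSeries.coeff_smul, inv_coeff_J_pow,
      ModularCurve.coeff_jqModC_pow_of_lt ℂ (by omega), smul_zero]

theorem inv_rat (N : ℕ) [NeZero N] [Cond N] (m : ℕ) : ∀ c : ℕ → ℂ,
    (∑ i ∈ Finset.range (m + 1), HahnSeries.C (c i) * invJ N ^ i) ∈
      (ModularCurve.coeffMap iotaC).range → ∀ i ≤ m, c i ∈ iotaC.range := by
  induction m with
  | zero =>
    intro c hc i hi
    obtain rfl : i = 0 := by omega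
    have := inv_coeff_mem hc 0
    simpa using this
  | succ m ih =>
    intro c hc
    have h1 : c (m + 1) ∈ iotaC.range := by
      have h2 := inv_coeff_mem hc ((N : ℤ) * (-((m + 1 : ℕ) : ℤ)))
      rw [Finset.sum_range_succ, HahnSeries.coeff_add,
        inv_coeff_sum_eq_zero N c (m + 1) (m + 1) le_rfl, zero_add,
        HahnSeries.C_mul_eq_smul, HahnSeries.coeff_smul, inv_coeff_J_pow,
        ModularCurve.coeff_jqModC_pow_self, smul_eq_mul, mul_one] at h2
      exact h2
    have h3 : (∑ i ∈ Finset.range (m + 1), HahnSeries.C (c i) * invJ N ^ i) ∈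
        (ModularCurve.coeffMap iotaC).range := by
      rw [Finset.sum_range_succ] at hc
      obtain ⟨a, ha⟩ := h1
      have h4 : HahnSeries.C (c (m + 1)) * invJ N ^ (m + 1) ∈
          (ModularCurve.coeffMap iotaC).range := by
        rw [← ha]
        exact mul_mem (inv_C_mem a) (pow_mem (inv_J_mem N) _)
      have := sub_mem hc h4
      simpa using this
    intro i hi
    rcases Nat.lt_or_ge i (m + 1) with h | h
    · exact ih c h3 i (by omega)
    · obtain rfl : i = m + 1 := by omega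
      exact h1


open Fermat.Agent.S23 in
theorem inv_exists_complex (N : ℕ) [NeZero N] [Cond N] (b : ℍ → ℂ) (hb : b ∈ Btil N)
    (hinv : ∀ g : SL(2, ℤ), act g b = b) :
    ∃ (m : ℕ) (c : ℕ → ℂ), ∀ z, b z = ∑ i ∈ Finset.range (m + 1), c i * jFun z ^ i := by
  obtain ⟨m, -, hmd, hbd⟩ := Btil_le_perSub N hb
  have hbinv : ∀ (g : SL(2, ℤ)) (z : ℍ), b (g • z) = b z := by
    intro g z
    have := congrFun (hinv g⁻¹) z
    simpa using this
  have hΔeq : ∀ (g : SL(2, ℤ)) (z : ℍ),
      discriminant (g • z) = denom g z ^ (12 : ℤ) * discriminant z := by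
    intro g z
    have hg : (g : GL (Fin 2) ℝ) ∈ 𝒮ℒ := ⟨g, rfl⟩
    exact SlashInvariantForm.slash_action_eqn'' CuspForm.discriminant hg z
  obtain ⟨H, hH⟩ := Fermat.Agent.ES.levelOne_of (k := 12 * (m : ℤ)) (b * discriminant ^ m) hmd
    (by
      intro g z
      simp only [Pi.mul_apply, Pi.pow_apply]
      rw [hbinv, hΔeq, mul_pow, ← zpow_natCast, ← zpow_mul]
      ring) hbd
  obtain ⟨c, hc⟩ := Fermat.Agent.S28.span_E4_Delta m (12 * (m : ℤ)) rfl H
  refine ⟨m, c, ?_⟩
  let e4 : niceSub := ⟨E₄, isNice_of_modularFormClass one_mem_strictPeriods_SL E₄⟩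
  let dl : niceSub := ⟨discriminant,
    isNice_of_modularFormClass one_mem_strictPeriods_SL CuspForm.discriminant⟩
  let h : niceSub := ⟨H, isNice_of_modularFormClass one_mem_strictPeriods_SL H⟩
  have hq : qHom h = qHom (∑ i ∈ Finset.range (m + 1), c i • (e4 ^ (3 * i) * dl ^ (m - i))) := by
    rw [map_sum]
    simp only [map_smul, map_mul, map_pow]
    show qExpansion 1 H = _
    rw [hc]
    apply Finset.sum_congr rfl
    intro i _
    rw [PowerSeries.smul_eq_C_mul, mul_assoc]
    rfl
  have hfun := congrArg Subtype.val (qHom_injective hq)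
  intro z
  have hz := congrFun hfun z
  have hz' : b z * discriminant z ^ m =
      ∑ i ∈ Finset.range (m + 1), c i * (E₄ z ^ (3 * i) * discriminant z ^ (m - i)) := by
    have h1 : H z = b z * discriminant z ^ m := by
      rw [hH]; rfl
    rw [← h1]
    have h2 : (h : ℍ → ℂ) z = H z := rfl
    rw [← h2, hz]
    simp only [AddSubmonoidClass.coe_finsetSum, Finset.sum_apply]
    rfl
  have hΔ := discriminant_ne_zero z
  have hΔm : discriminant z ^ m ≠ 0 := pow_ne_zero _ hΔ
  apply mul_right_cancel₀ hΔm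
  rw [hz', Finset.sum_mul]
  apply Finset.sum_congr rfl
  intro i hi
  have him : i ≤ m := by
    have := Finset.mem_range.mp hi
    omega
  rw [jFun, div_pow, ← pow_mul]
  have h3 : discriminant z ^ m = discriminant z ^ i * discriminant z ^ (m - i) := by
    rw [← pow_add]; congr 1; omega
  rw [h3]
  field_simp

theorem inv_mem (N : ℕ) [NeZero N] [Cond N] (b : ℍ → ℂ) (hb : b ∈ Btil N)
    (hinv : ∀ g : SL(2, ℤ), act g b = b) :
    ∃ P : Polynomial Kc, b = fun z => (P.map iotaC).eval (jFun z) := by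
  obtain ⟨m, c, hbc⟩ := inv_exists_complex N b hb hinv
  have hjmem : jFun ∈ Btil N := by
    have := jd_mem_Btil (one_dvd N)
    rwa [jd_one] at this
  let jj : perSub N := ⟨jFun, Btil_le_perSub N hjmem⟩
  have hTj : TInf N jj = invJ N := by
    have : NeZero (1 * N) := ⟨by simpa using NeZero.ne N⟩
    have h1 := TInf_jd N (one_dvd N)
    have h2 : (⟨jd 1, Btil_le_perSub N (jd_mem_Btil (one_dvd N))⟩ : perSub N) = jj :=
      Subtype.ext jd_one
    rw [h2] at h1
    rw [h1, invJ]
    exact ModularCurve.qExpand_congr (one_mul N) _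
  let cc : ℕ → perSub N := fun i => ⟨fun _ => c i, (isBd_const N (c i)).isPer⟩
  have hbsum : (⟨b, Btil_le_perSub N hb⟩ : perSub N) =
      ∑ i ∈ Finset.range (m + 1), cc i * jj ^ i := by
    apply Subtype.ext
    funext z
    simp only [AddSubmonoidClass.coe_finsetSum, Finset.sum_apply]
    exact hbc z
  have hT : TInf N ⟨b, Btil_le_perSub N hb⟩ =
      ∑ i ∈ Finset.range (m + 1), HahnSeries.C (c i) * invJ N ^ i := by
    rw [hbsum, map_sum]
    apply Finset.sum_congr rfl
    intro i _
    rw [map_mul, map_pow, hTj]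
    congr 1
    exact TInf_const N (c i) _
  have hr := inv_rat N m c (hT ▸ TInf_Btil_mem_range N b hb)
  choose! a ha using hr
  refine ⟨∑ i ∈ Finset.range (m + 1), Polynomial.monomial i (a i), ?_⟩
  funext z
  rw [hbc z, Polynomial.map_sum, Polynomial.eval_finsetSum]
  apply Finset.sum_congr rfl
  intro i hi
  have him : i ≤ m := by
    have := Finset.mem_range.mp hi
    omega
  rw [Polynomial.map_monomial, Polynomial.eval_monomial, ha i him]

end Fermat.Agent.TC24
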