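import Fermat.Agent.S48.TC24.Base
import Fermat.Agent.S48.T24.Phi
import Fermat.Agent.C24.Phi
import Fermat.Prelude.Thm_ModularCurve_coeffMap_qExpand

set_option autoImplicit false
set_option linter.style.haveILetI false

/-! # S24 task B-Phi : the function field as a field of functions -/

open UpperHalfPlane ModularForm EisensteinSeries CongruenceSubgroup
open scoped MatrixGroups Manifold

namespace Fermat.Agent.TC24

open Fermat.Agent.S24 hiding constK constK_apply act_constK twist_mem_range_coeffMap_iff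
  twist_mem_range qExpand_mem_range rootU_mem_range expandC_jq_mem_range btilGens Btil
  constK_mem_Btil act_jd_mem_Btil jd_mem_Btil act_mem_Btil actB coe_actB Jser fGens A0 Jser_mem_A0
  FN Btil_le_holSub Btil_le_perSub TInf_Btil_mem_range TInf_jd mem_Gamma0_of_act_jd_eq
open Fermat.Agent.C24 (Kc iotaC iotaCinv iotaC_iotaCinv iotaCinv_iotaC mem_range_iotaC constK
  constK_apply act_constK twist_mem_range_coeffMap_iff twist_mem_range qExpand_mem_range
  rootU_mem_range expandC_jq_mem_range Jser)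
open Fermat.Agent.T24 (Cond Gam mem_Gam Gam_le yv te tb Tq act_ye_eq_pre pre_yv_mem_perSub mdiff_yv
  act_te te_neg act_te_of_mem_Gam pos_of_mul_dvd eq_one_or_of_te_eq mem_Gam_of_act_eq
  finiteIndex_Gam finite_quot_Gam)

/-! ### auxiliary lemmas -/

theorem phi_Jser_of_ne {d : ℕ} [NeZero d] : Jser d = ModularCurve.jqNModC Kc d := by
  unfold Jser
  rw [dif_neg (NeZero.ne d)]

theorem phi_Tser_of_ne {D e : ℕ} [NeZero e] (b : ZMod D) :
    Tser D e b = ModularCurve.coeffEmb Kc (ModularCurve.qExpand ℚ e (Tq D b)) := by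
  unfold Tser
  rw [dif_neg (NeZero.ne e)]

theorem phi_coeffMap_jqModC {K K' : Type*} [CommRing K] [CommRing K'] (f : K →+* K') :
    ModularCurve.coeffMap f (ModularCurve.jqModC K) = ModularCurve.jqModC K' :=
  ModularCurve.map_jqModC f

theorem phi_coeffEmb_qExpand_jq (d : ℕ) [NeZero d] :
    ModularCurve.coeffEmb Kc (ModularCurve.qExpand ℚ d ModularCurve.jq) = Jser d := by
  rw [phi_Jser_of_ne, ModularCurve.jqNModC, ModularCurve.coeffEmb, ModularCurve.coeffMap_qExpand,
    ← ModularCurve.jqModC_rat, phi_coeffMap_jqModC]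

theorem phi_coeffEmb_algebraMap (r : ℚ) :
    ModularCurve.coeffEmb Kc (algebraMap ℚ (LaurentSeries ℚ) r) =
      algebraMap Kc (LaurentSeries Kc) (algebraMap ℚ Kc r) := by
  rw [ModularCurve.algebraMap_laurentSeries_eq_single, ModularCurve.algebraMap_laurentSeries_eq_single,
    ModularCurve.coeffEmb, ModularCurve.coeffMap_single]

theorem modularFunctionFieldBar_eq (N : ℕ) [NeZero N] [Cond N] :
    mffC N = IntermediateField.adjoin Kc (fGens N) := by
  apply le_antisymm
  · show ModularCurve.laurentBaseChange Kc (T24.modularFunctionFieldFull N) ≤ _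
    unfold ModularCurve.laurentBaseChange
    rw [IntermediateField.adjoin_le_iff]
    rintro _ ⟨x, hx, rfl⟩
    have hx' : x ∈ IntermediateField.adjoin ℚ (T24.divisorExpansions N) := hx
    show ModularCurve.coeffEmb Kc x ∈ IntermediateField.adjoin Kc (fGens N)
    induction hx' using IntermediateField.adjoin_induction with
    | mem y hy =>
      rcases hy with ⟨d, hd0, hd, rfl⟩ | ⟨e, he0, b, he, rfl⟩
      · rw [phi_coeffEmb_qExpand_jq]
        exact IntermediateField.subset_adjoin _ _ (Or.inl ⟨d, hd, rfl⟩)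
      · rw [← phi_Tser_of_ne]
        exact IntermediateField.subset_adjoin _ _ (Or.inr ⟨e, b, he, rfl⟩)
    | algebraMap r =>
      rw [phi_coeffEmb_algebraMap]
      exact IntermediateField.algebraMap_mem _ _
    | add y z _ _ hy hz => rw [map_add]; exact add_mem (hy (by assumption)) (hz (by assumption))
    | inv y _ hy => rw [map_inv₀]; exact inv_mem (hy (by assumption))
    | mul y z _ _ hy hz => rw [map_mul]; exact mul_mem (hy (by assumption)) (hz (by assumption))
  · rw [IntermediateField.adjoin_le_iff]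
    rintro _ (⟨d, hd, rfl⟩ | ⟨e, b, he, rfl⟩)
    · haveI : NeZero d := ⟨fun h => NeZero.ne N (by subst h; simpa using hd)⟩
      rw [← phi_coeffEmb_qExpand_jq]
      exact ModularCurve.coeffEmb_mem_laurentBaseChange Kc
        (IntermediateField.subset_adjoin _ _ (Or.inl ⟨d, inferInstance, hd, rfl⟩))
    · haveI : NeZero e := ⟨(pos_of_mul_dvd he).ne'⟩
      rw [phi_Tser_of_ne]
      exact ModularCurve.coeffEmb_mem_laurentBaseChange Kc
        (IntermediateField.subset_adjoin _ _ (Or.inr ⟨e, inferInstance, b, he, rfl⟩))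

theorem A0_le (N : ℕ) [NeZero N] [Cond N] (a : LaurentSeries Kc) (ha : a ∈ A0 N) :
    a ∈ mffC N := by
  rw [modularFunctionFieldBar_eq]
  exact IntermediateField.algebra_adjoin_le_adjoin Kc (fGens N) ha

/-- every element of the function field is a quotient of elements of `A0`. -/
theorem exists_div_A0 (N : ℕ) [NeZero N] [Cond N] (f : LaurentSeries Kc)
    (hf : f ∈ mffC N) :
    ∃ u ∈ A0 N, ∃ w ∈ A0 N, w ≠ 0 ∧ f = u / w := by
  rw [modularFunctionFieldBar_eq, IntermediateField.mem_adjoin_iff_div] at hf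
  obtain ⟨r, hr, s, hs, rfl⟩ := hf
  by_cases h0 : s = 0
  · exact ⟨0, zero_mem _, 1, one_mem _, one_ne_zero, by simp [h0]⟩
  · exact ⟨r, hr, s, hs, h0, rfl⟩

/-- two ring homs out of `A0` agreeing on constants and on the `Jser d` are equal. -/
theorem phi_ringHom_ext {R : Type*} [Semiring R] (N : ℕ) [Cond N] (f g : A0 N →+* R)
    (hc : ∀ a : Kc, f (algebraMap Kc (A0 N) a) = g (algebraMap Kc (A0 N) a))
    (hJ : ∀ (d : ℕ) (hd : d ∣ N), f ⟨Jser d, Jser_mem_A0 hd⟩ = g ⟨Jser d, Jser_mem_A0 hd⟩)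
    (hT : ∀ (e : ℕ) (b : ZMod (Cond.D N)) (he : e * Cond.D N ∣ N),
      f ⟨Tser (Cond.D N) e b, Tser_mem_A0 he b⟩ = g ⟨Tser (Cond.D N) e b, Tser_mem_A0 he b⟩) :
    f = g := by
  ext ⟨a, ha⟩
  have ha' : a ∈ Algebra.adjoin Kc (fGens N) := ha
  induction ha' using Algebra.adjoin_induction with
  | mem x hx =>
    rcases hx with ⟨d, hd, rfl⟩ | ⟨e, b, he, rfl⟩
    · exact hJ d hd
    · exact hT e b he
  | algebraMap r => exact hc r
  | add x y hx hy ihx ihy =>
    have hx' : x ∈ A0 N := hx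
    have hy' : y ∈ A0 N := hy
    have h1 : (⟨x + y, ha⟩ : A0 N) = ⟨x, hx'⟩ + ⟨y, hy'⟩ := rfl
    rw [h1, map_add, map_add, ihx hx', ihy hy']
  | mul x y hx hy ihx ihy =>
    have hx' : x ∈ A0 N := hx
    have hy' : y ∈ A0 N := hy
    have h1 : (⟨x * y, ha⟩ : A0 N) = ⟨x, hx'⟩ * ⟨y, hy'⟩ := rfl
    rw [h1, map_mul, map_mul, ihx hx', ihy hy']

/-- the algebraic expansion map. -/
noncomputable def phiKappa (N : ℕ) [NeZero N] [Cond N] : A0 N →+* LaurentSeries ℂ :=
  (ModularCurve.qExpand ℂ N).comp ((ModularCurve.coeffMap iotaC).comp (A0 N).val.toRingHom)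

theorem phiKappa_apply (N : ℕ) [NeZero N] [Cond N] (a : A0 N) :
    phiKappa N a = ModularCurve.qExpand ℂ N (ModularCurve.coeffMap iotaC (a : LaurentSeries Kc)) :=
  rfl

/-- the analytic expansion map. -/
noncomputable def phiTau (N : ℕ) [NeZero N] [Cond N] : Btil N →+* LaurentSeries ℂ :=
  (TInf N).comp (Subring.inclusion (Btil_le_perSub N))

theorem phiTau_apply (N : ℕ) [NeZero N] [Cond N] (b : Btil N) :
    phiTau N b = TInf N ⟨(b : ℍ → ℂ), Btil_le_perSub N b.2⟩ := rfl

theorem phiTau_injective (N : ℕ) [NeZero N] [Cond N] : Function.Injective (phiTau N) :=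
  (TInf_injective N).comp (Subring.inclusion_injective _)

theorem phi_coeffMap_injective {R S : Type*} [CommRing R] [CommRing S] (f : R →+* S)
    (hf : Function.Injective f) : Function.Injective (ModularCurve.coeffMap f) := by
  intro x y h
  ext k
  apply hf
  rw [← ModularCurve.coeffMap_coeff, ← ModularCurve.coeffMap_coeff, h]

theorem phiKappa_injective (N : ℕ) [NeZero N] [Cond N] : Function.Injective (phiKappa N) :=
  (ModularCurve.qExpand_injective N).comp
    ((phi_coeffMap_injective iotaC iotaC.injective).comp Subtype.val_injective)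

theorem phiKappa_const (N : ℕ) [NeZero N] [Cond N] (a : Kc) :
    phiKappa N (algebraMap Kc (A0 N) a) = phiTau N ⟨constK a, constK_mem_Btil N a⟩ := by
  rw [phiKappa_apply, phiTau_apply]
  have h1 : ((algebraMap Kc (A0 N) a : A0 N) : LaurentSeries Kc) =
      algebraMap Kc (LaurentSeries Kc) a := rfl
  rw [h1, ModularCurve.algebraMap_laurentSeries_eq_single, ModularCurve.coeffMap_single,
    ModularCurve.qExpand_single, mul_zero]
  exact (TInf_const N (iotaC a) _).symm

theorem phiKappa_Jser (N : ℕ) [NeZero N] [Cond N] (d : ℕ) (hd : d ∣ N) :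
    phiKappa N ⟨Jser d, Jser_mem_A0 hd⟩ = phiTau N ⟨jd d, jd_mem_Btil hd⟩ := by
  haveI : NeZero d := ⟨fun h => NeZero.ne N (by subst h; simpa using hd)⟩
  haveI : NeZero (d * N) := ⟨mul_ne_zero (NeZero.ne d) (NeZero.ne N)⟩
  rw [phiKappa_apply, phiTau_apply]
  show ModularCurve.qExpand ℂ N (ModularCurve.coeffMap iotaC (Jser d)) =
    TInf N ⟨jd d, Btil_le_perSub N (jd_mem_Btil hd)⟩
  rw [TInf_jd N hd, phi_Jser_of_ne, ModularCurve.jqNModC, ModularCurve.coeffMap_qExpand,
    phi_coeffMap_jqModC, ModularCurve.qExpand_qExpand]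
  exact ModularCurve.qExpand_congr (mul_comm N d) _

theorem phiKappa_Tser (N : ℕ) [NeZero N] [Cond N] (e : ℕ) (b : ZMod (Cond.D N))
    (he : e * Cond.D N ∣ N) :
    phiKappa N ⟨Tser (Cond.D N) e b, Tser_mem_A0 he b⟩ =
      phiTau N ⟨te (Cond.D N) e b, te_mem_Btil he b⟩ := by
  haveI : NeZero e := ⟨(pos_of_mul_dvd he).ne'⟩
  haveI : NeZero (e * N) := ⟨mul_ne_zero (NeZero.ne e) (NeZero.ne N)⟩
  rw [phiKappa_apply, phiTau_apply]
  show ModularCurve.qExpand ℂ N (ModularCurve.coeffMap iotaC (Tser (Cond.D N) e b)) =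
    TInf N ⟨te (Cond.D N) e b, Btil_le_perSub N (te_mem_Btil he b)⟩
  rw [TInf_te N he b, phi_Tser_of_ne, ModularCurve.coeffEmb, ModularCurve.coeffMap_qExpand,
    ModularCurve.coeffMap_qExpand, ModularCurve.qExpand_qExpand]
  exact ModularCurve.qExpand_congr (mul_comm N e) _

theorem phiKappa_mem_range (N : ℕ) [NeZero N] [Cond N] (a : A0 N) : phiKappa N a ∈ (phiTau N).range := by
  obtain ⟨a, ha⟩ := a
  have ha' : a ∈ Algebra.adjoin Kc (fGens N) := ha
  induction ha' using Algebra.adjoin_induction with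
  | mem x hx =>
    rcases hx with ⟨d, hd, rfl⟩ | ⟨e, b, he, rfl⟩
    · exact ⟨_, (phiKappa_Jser N d hd).symm⟩
    · exact ⟨_, (phiKappa_Tser N e b he).symm⟩
  | algebraMap r => exact ⟨_, (phiKappa_const N r).symm⟩
  | add x y hx hy ihx ihy =>
    have hx' : x ∈ A0 N := hx
    have hy' : y ∈ A0 N := hy
    have h1 : (⟨x + y, ha⟩ : A0 N) = ⟨x, hx'⟩ + ⟨y, hy'⟩ := rfl
    rw [h1, map_add]
    exact add_mem (ihx hx') (ihy hy')
  | mul x y hx hy ihx ihy =>
    have hx' : x ∈ A0 N := hx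
    have hy' : y ∈ A0 N := hy
    have h1 : (⟨x * y, ha⟩ : A0 N) = ⟨x, hx'⟩ * ⟨y, hy'⟩ := rfl
    rw [h1, map_mul]
    exact mul_mem (ihx hx') (ihy hy')

/-- factoring a ring hom through an injective one. -/
theorem phi_exists_factor {A B M : Type*} [Ring A] [Ring B] [Ring M] (τ : B →+* M) (κ : A →+* M)
    (hτ : Function.Injective τ) (h : ∀ a, κ a ∈ τ.range) : ∃ Φ : A →+* B, ∀ a, τ (Φ a) = κ a := by
  choose φ hφ using h
  refine ⟨{ toFun := φ, map_one' := ?_, map_mul' := ?_, map_zero' := ?_, map_add' := ?_ }, hφ⟩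
  · apply hτ; rw [hφ, map_one, map_one]
  · intro x y; apply hτ; rw [hφ, map_mul, map_mul, hφ, hφ]
  · apply hτ; rw [hφ, map_zero, map_zero]
  · intro x y; apply hτ; rw [hφ, map_add, map_add, hφ, hφ]

theorem exists_PhiB (N : ℕ) [NeZero N] [Cond N] : ∃ Φ : A0 N →+* Btil N, Function.Injective Φ ∧
    (∀ a : Kc, ((Φ (algebraMap Kc (A0 N) a) : Btil N) : ℍ → ℂ) = constK a) ∧
    (∀ (d : ℕ) (hd : d ∣ N), ((Φ ⟨Jser d, Jser_mem_A0 hd⟩ : Btil N) : ℍ → ℂ) = jd d) ∧
    ∀ (e : ℕ) (b : ZMod (Cond.D N)) (he : e * Cond.D N ∣ N),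
      ((Φ ⟨Tser (Cond.D N) e b, Tser_mem_A0 he b⟩ : Btil N) : ℍ → ℂ) = te (Cond.D N) e b := by
  obtain ⟨Φ, hΦ⟩ := phi_exists_factor (phiTau N) (phiKappa N) (phiTau_injective N)
    (phiKappa_mem_range N)
  refine ⟨Φ, ?_, ?_, ?_, ?_⟩
  · intro x y hxy
    apply phiKappa_injective N
    rw [← hΦ, ← hΦ, hxy]
  · intro a
    have h1 : Φ (algebraMap Kc (A0 N) a) = ⟨constK a, constK_mem_Btil N a⟩ := by
      apply phiTau_injective N
      rw [hΦ, phiKappa_const]
    rw [h1]
  · intro d hd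
    have h1 : Φ ⟨Jser d, Jser_mem_A0 hd⟩ = ⟨jd d, jd_mem_Btil hd⟩ := by
      apply phiTau_injective N
      rw [hΦ, phiKappa_Jser N d hd]
    rw [h1]
  · intro e b he
    have h1 : Φ ⟨Tser (Cond.D N) e b, Tser_mem_A0 he b⟩ = ⟨te (Cond.D N) e b, te_mem_Btil he b⟩ := by
      apply phiTau_injective N
      rw [hΦ, phiKappa_Tser N e b he]
    rw [h1]

/-- `j(q^d) ↦ j(d z)`. -/
noncomputable def PhiB (N : ℕ) [NeZero N] [Cond N] : A0 N →+* Btil N := (exists_PhiB N).choose

theorem PhiB_injective (N : ℕ) [NeZero N] [Cond N] : Function.Injective (PhiB N) :=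
  (exists_PhiB N).choose_spec.1

theorem PhiB_const (N : ℕ) [NeZero N] [Cond N] (a : Kc) :
    ((PhiB N (algebraMap Kc (A0 N) a) : Btil N) : ℍ → ℂ) = constK a :=
  (exists_PhiB N).choose_spec.2.1 a

theorem PhiB_Jser (N : ℕ) [NeZero N] [Cond N] {d : ℕ} (hd : d ∣ N) :
    ((PhiB N ⟨Jser d, Jser_mem_A0 hd⟩ : Btil N) : ℍ → ℂ) = jd d :=
  (exists_PhiB N).choose_spec.2.2.1 d hd

theorem PhiB_Tser (N : ℕ) [NeZero N] [Cond N] {e : ℕ} (he : e * Cond.D N ∣ N) (b : ZMod (Cond.D N)) :
    ((PhiB N ⟨Tser (Cond.D N) e b, Tser_mem_A0 he b⟩ : Btil N) : ℍ → ℂ) = te (Cond.D N) e b :=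
  (exists_PhiB N).choose_spec.2.2.2 e b he

/-- elements of the image of `PhiB` are `Γ₀(N)`-invariant. -/
theorem act_PhiB (N : ℕ) [NeZero N] [Cond N] (g : SL(2, ℤ)) (hg : g ∈ Gam N) (a : A0 N) :
    actB N g (PhiB N a) = PhiB N a := by
  have h : (actB N g).comp (PhiB N) = PhiB N := by
    apply phi_ringHom_ext
    · intro a
      apply Subtype.ext
      rw [RingHom.comp_apply, coe_actB, PhiB_const, act_constK]
    · intro d hd
      apply Subtype.ext
      rw [RingHom.comp_apply, coe_actB, PhiB_Jser N hd, act_jd_of_mem_Gamma0 hd g hg.1]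
    · intro e b he
      apply Subtype.ext
      rw [RingHom.comp_apply, coe_actB, PhiB_Tser N he, act_te_of_mem_Gam he b g hg]
  exact congrArg (fun F : A0 N →+* Btil N => F a) h

/-- compatibility of `PhiB` with the expansions at `∞`. -/
theorem TInf_PhiB (N : ℕ) [NeZero N] [Cond N] (a : A0 N) :
    TInf N ⟨(PhiB N a : ℍ → ℂ), Btil_le_perSub N (PhiB N a).2⟩ =
      ModularCurve.qExpand ℂ N (ModularCurve.coeffMap iotaC (a : LaurentSeries Kc)) := by
  have h : (phiTau N).comp (PhiB N) = phiKappa N := by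
    apply phi_ringHom_ext
    · intro a
      rw [RingHom.comp_apply, phiKappa_const]
      congr 1
      exact Subtype.ext (PhiB_const N a)
    · intro d hd
      rw [RingHom.comp_apply, phiKappa_Jser N d hd]
      congr 1
      exact Subtype.ext (PhiB_Jser N hd)
    · intro e b he
      rw [RingHom.comp_apply, phiKappa_Tser N e b he]
      congr 1
      exact Subtype.ext (PhiB_Tser N he b)
  exact congrArg (fun F : A0 N →+* LaurentSeries ℂ => F a) h

end Fermat.Agent.TC24
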